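import Fermat.Agent.A2.Alg.H609.PurityNode
import Fermat.Agent.A2.H609.ChartSmooth

/-!
# WALL A2 / ALG — leaf P-S `purity_smooth` (helper609)

`puritySmoothLeaf : Alg.H34.PuritySmoothLeaf`, VERBATIM the leaf of the assembly
`Alg.H34.algSS_of_leaves`.

Proof.  The closed point `n ∋ w` lies on exactly one component `p` (`p₁ p₂ ⊆ (w) ⊆ n`).
* If `n = p` (the component is a closed point), `u` itself is a unit at `n` and `d = 1` works.
* Otherwise `A2.H609.exists_pureAt_smooth`: in `B_n` the component is principal, generated by `w`,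
  with quotient a discrete valuation ring; purity there gives `u b ^ m = ε f ^ m`, and
  `d₀ = b / f` is corrected at the other component `p'` by a power of an element
  `g ∈ p' ∖ n` with `g = w × unit` at `p'`.
-/

set_option autoImplicit false

namespace Fermat.Agent.A2.Alg.H609

open Fermat.Agent.A2 Fermat.Agent.A2.Alg

section Smooth

variable {R E F : Type*} [CommRing R] [IsDomain R] [IsDiscreteValuationRing R]
  [Field E] [CharZero E] [Algebra R E] [IsFractionRing R E]
  [Field F] [Algebra E F] [Algebra R F] [IsScalarTower R E F]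

omit [IsDomain R] [IsDiscreteValuationRing R] [Field E] [CharZero E] [Algebra R E]
  [IsFractionRing R E] [Algebra E F] [IsScalarTower R E F] in
/-- A function with constant unit residue on the component `p` is a unit at `p`. -/
theorem locUnit_of_constAt (B : Subalgebra R F) (p : Ideal B) (hp : p.IsPrime) (u : F)
    (h : ConstAt B p u) : LocUnit B p u := by
  obtain ⟨c, hc, a, b, hb, hab, hu⟩ := h
  refine ⟨a, b, fun ha => ?_, hb, hu⟩
  have h3 : algebraMap R B c * b ∈ p := by
    have : algebraMap R B c * b = a - (a - algebraMap R B c * b) := by ring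
    rw [this]
    exact p.sub_mem ha hab
  rcases hp.mem_or_mem h3 with h4 | h4
  · exact hp.ne_top (Ideal.eq_top_of_isUnit_mem p h4 (hc.map _))
  · exact hb h4

omit [IsDomain R] [IsDiscreteValuationRing R] [Field E] [CharZero E] [Algebra R E]
  [IsFractionRing R E] [Algebra E F] [IsScalarTower R E F] in
/-- `1` is a unit at every prime. -/
theorem locUnit_one (B : Subalgebra R F) (p : Ideal B) (hp : p.IsPrime) :
    LocUnit B p (1 : F) :=
  ⟨1, 1, fun h => hp.ne_top ((Ideal.eq_top_iff_one p).2 h),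
    fun h => hp.ne_top ((Ideal.eq_top_iff_one p).2 h), by simp⟩

/-- **Leaf P-S**, universe polymorphic. -/
theorem purity_smooth (m : ℕ) (hm : 0 < m)
    (w : R) (x : F) (B : Subalgebra R F) (hB : ChartCtx E w x B)
    (c : SSChart w B)
    (u : F) (hdiv : DivisibleDiv E m u) (hs : IsSplit B c u)
    (n : Ideal B) (hn : n.IsPrime) (hwn : algebraMap R B w ∈ n)
    (h1 : ¬ (c.p₁ ≤ n ∧ c.p₂ ≤ n)) : PureAt B c m u n := by
  obtain ⟨hnoeth, hic, hfrac⟩ := H34.chart_instances' w x B hB
  have hp₁ : c.p₁.IsPrime := c.prime₁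
  have hp₂ : c.p₂.IsPrime := c.prime₂
  have hn₁ : IsIntegrallyClosed (B ⧸ c.p₁) := c.normal₁
  have hn₂ : IsIntegrallyClosed (B ⧸ c.p₂) := c.normal₂
  have hw : algebraMap R B w ∈ c.p₁ ⊓ c.p₂ := by
    rw [c.inf_eq]
    exact Ideal.mem_span_singleton_self _
  have hd₁ : IsDedekindDomain (B ⧸ c.p₁) := isDedekindDomain_quotient_chart w x B hB c.p₁ hw.1
  have hd₂ : IsDedekindDomain (B ⧸ c.p₂) := isDedekindDomain_quotient_chart w x B hB c.p₂ hw.2
  have hor : c.p₁ ≤ n ∨ c.p₂ ≤ n := by
    have hle : c.p₁ * c.p₂ ≤ n := by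
      refine le_trans Ideal.mul_le_inf ?_
      rw [c.inf_eq, Ideal.span_le, Set.singleton_subset_iff]
      exact hwn
    exact (Ideal.IsPrime.mul_le hn).1 hle
  rcases hor with h | h
  · have h2 : ¬ c.p₂ ≤ n := fun h' => h1 ⟨h, h'⟩
    by_cases hne : c.p₁ = n
    · refine ⟨1, one_ne_zero, ?_, locUnit_one B c.p₁ hp₁, locUnit_one B c.p₂ hp₂⟩
      rw [one_pow, mul_one, ← hne]
      exact locUnit_of_constAt B c.p₁ hp₁ u hs.1
    · exact Fermat.Agent.A2.H609.exists_pureAt_smooth (B := B) (F := F) hm.ne' c.p₁ c.p₂ n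
        c.inf_eq c.not_le₁₂ c.not_le₂₁ h hne h2 u
        (hdiv_of_divisibleDiv w hB.hw B m u hdiv) (hs_of_constAt B c.p₁ u hs.1)
  · have h2 : ¬ c.p₁ ≤ n := fun h' => h1 ⟨h', h⟩
    by_cases hne : c.p₂ = n
    · refine ⟨1, one_ne_zero, ?_, locUnit_one B c.p₁ hp₁, locUnit_one B c.p₂ hp₂⟩
      rw [one_pow, mul_one, ← hne]
      exact locUnit_of_constAt B c.p₂ hp₂ u hs.2
    · have hinf : c.p₂ ⊓ c.p₁ = Ideal.span {algebraMap R B w} := by
        rw [inf_comm]
        exact c.inf_eq
      obtain ⟨d, hd, hdn, hd₂', hd₁'⟩ :=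
        Fermat.Agent.A2.H609.exists_pureAt_smooth (B := B) (F := F) hm.ne' c.p₂ c.p₁ n
          hinf c.not_le₂₁ c.not_le₁₂ h hne h2 u
          (hdiv_of_divisibleDiv w hB.hw B m u hdiv) (hs_of_constAt B c.p₂ u hs.2)
      exact ⟨d, hd, hdn, hd₁', hd₂'⟩

end Smooth

/-- **Leaf P-S** `purity_smooth`, VERBATIM (`Alg.H34.PuritySmoothLeaf`). -/
theorem puritySmoothLeaf : H34.PuritySmoothLeaf := by
  intro R E F _ _ _ _ _ _ _ _ _ _ _ _ _ q m _ _ hm _ w x B hB c _ u _ hdiv hs n hn hwn h1
  exact purity_smooth m hm w x B hB c u hdiv hs n hn.isPrime hwn h1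

/-- Purity at every closed point of the special fibre of a chart (both leaves). -/
theorem pureAt_of_isSplit {R E F : Type} [CommRing R] [IsDomain R] [IsDiscreteValuationRing R]
    [Field E] [CharZero E] [Algebra R E] [IsFractionRing R E]
    [Field F] [Algebra E F] [Algebra R F] [IsScalarTower R E F]
    (m : ℕ) (hm : 0 < m)
    (w : R) (x : F) (B : Subalgebra R F) (hB : ChartCtx E w x B)
    (c : SSChart w B)
    (u : F) (hdiv : DivisibleDiv E m u) (hs : IsSplit B c u)
    (n : Ideal B) (hn : n.IsPrime) (hwn : algebraMap R B w ∈ n) : PureAt B c m u n := by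
  by_cases h1 : c.p₁ ≤ n ∧ c.p₂ ≤ n
  · exact purity_node m hm w x B hB c u hdiv hs n hn h1.1 h1.2
  · exact purity_smooth m hm w x B hB c u hdiv hs n hn hwn h1

end Fermat.Agent.A2.Alg.H609
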